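import Fermat.Agent.RTE.Curve
import Fermat.Agent.ELoc.Frey
import Fermat.Agent.LLw.Orb
import Fermat.Prelude.Def_WeierstrassCurve_PeuRamifiee

/-!
# Local structure of `E[p]` at a prime `p` of multiplicative reduction with `p ∣ v_p(Δ)`
-/

set_option autoImplicit false

namespace Fermat.Agent.LM3

open WeierstrassCurve WeierstrassCurve.Affine WeierstrassCurve.Affine.Point
open Fermat.Agent.EC (IsInt InE1 xX xZ TrivMod)
open Fermat.Agent.ECP Fermat.Agent.ELoc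

section Val

variable {K Γ₀ : Type*} [Field K] [LinearOrderedCommGroupWithZero Γ₀] {v : Valuation K Γ₀}
  {W : WeierstrassCurve.Affine K} {e t β : K}

/-- the `2`-division polynomial around the node -/
lemma tc_sq_node (h : NodeData v W e t β) {P : W.Point} (hP : P ≠ 0) :
    tc P ^ 2 = (xc P - e) *
      (4 * (xc P - e) ^ 2 + (W.b₂ + 12 * e) * (xc P - e) + 4 * β) := by
  rw [ECP.tc_sq hP]
  linear_combination h.h6 + 2 * (xc P - e) * h.h4

lemma val_lin {x y : K} (h : v x < v y) : v (x + y) = v y :=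
  Valuation.map_add_eq_of_lt_right v h

/-- the valuation of the quadratic factor -/
lemma val_quad {B b ξ : K} (h4 : v (4 : K) = 1) (hB : v B = 1) (hξ1 : v ξ < 1)
    (hb : v b < v ξ) : v (4 * ξ ^ 2 + B * ξ + 4 * b) = v ξ := by
  have hξ0 : 0 < v ξ := lt_of_le_of_lt zero_le hb
  have h1 : v (4 * ξ ^ 2) < v (B * ξ) := by
    rw [map_mul, map_mul, map_pow, h4, hB, one_mul, one_mul, pow_two]
    exact mul_lt_of_lt_one_left hξ0 hξ1
  have h2 : v (4 * ξ ^ 2 + B * ξ) = v ξ := by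
    rw [val_lin h1, map_mul, hB, one_mul]
  rw [Valuation.map_add_eq_of_lt_left, h2]
  rw [h2, map_mul, h4, one_mul]
  exact hb

/-- valuation of `2y + a₁x + a₃` -/
lemma val_tc (h : NodeData v W e t β) (h4 : v (4 : K) = 1) {P : W.Point} (hP : P ≠ 0)
    (hξ1 : v (xc P - e) < 1) (hβ : v β < v (xc P - e)) : v (tc P) = v (xc P - e) := by
  have h1 : v (tc P) ^ 2 = v (xc P - e) ^ 2 := by
    rw [← map_pow, tc_sq_node h hP, map_mul, val_quad h4 h.unit hξ1 hβ, pow_two]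
  exact (pow_left_inj₀ zero_le zero_le two_ne_zero).mp h1

/-- the ratio of the two values of `2y + a₁x + a₃` -/
lemma val_ratio_sq (h : NodeData v W e t β) (h4 : v (4 : K) = 1) {P Q : W.Point} (hP : P ≠ 0)
    (hQ : Q ≠ 0) (hξ1 : v (xc P - e) < 1) (hβ : v β < v (xc P - e)) {g : Γ₀} (hg0 : 0 < g)
    (hg1 : g < 1) (hr : v ((xc Q - e) / (xc P - e) - 1) = g) :
    v ((tc Q / tc P) ^ 2 - 1) = g := by
  set ξ := xc P - e with hξ
  set ξ' := xc Q - e with hξ'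
  set B := W.b₂ + 12 * e with hB
  have hξ0 : 0 < v ξ := lt_of_le_of_lt zero_le hβ
  have hξne : ξ ≠ 0 := (v.ne_zero_iff).mp hξ0.ne'
  set δ := ξ' / ξ - 1 with hδ
  have e1 : ξ' = ξ * (1 + δ) := by rw [hδ]; field_simp; ring
  set q := 4 * ξ ^ 2 + B * ξ + 4 * β with hq
  have hvq : v q = v ξ := val_quad h4 h.unit hξ1 hβ
  have hqne : q ≠ 0 := (v.ne_zero_iff).mp (by rw [hvq]; exact hξ0.ne')
  have e2 : (tc Q / tc P) ^ 2 - 1 =
      2 * δ + δ * (δ + (1 + δ) * ((4 * ξ * ξ' - 4 * β) / q)) := by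
    rw [div_pow, tc_sq_node h hP, tc_sq_node h hQ, ← hξ, ← hξ', ← hB, ← hq]
    rw [e1]
    field_simp
    rw [hq]
    ring
  have h2 : v (2 : K) = 1 := by
    have : v (2 : K) ^ 2 = 1 := by
      rw [← map_pow]
      norm_num
      exact h4
    exact (pow_eq_one_iff_of_nonneg zero_le two_ne_zero).mp this
  have hδ1 : v δ = g := hr
  have hvξ' : v ξ' ≤ v ξ := by
    rw [e1, map_mul]
    refine mul_le_of_le_one_right' ?_
    exact (v.map_add _ _).trans (max_le (by rw [map_one]) (by rw [hδ1]; exact hg1.le))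
  have h3 : v ((4 * ξ * ξ' - 4 * β) / q) < 1 := by
    rw [map_div₀, hvq, div_lt_one₀ hξ0]
    refine lt_of_le_of_lt (v.map_sub _ _) (max_lt ?_ ?_)
    · rw [map_mul, map_mul, h4, one_mul]
      calc v ξ * v ξ' ≤ v ξ * v ξ := mul_le_mul_right hvξ' _
        _ < v ξ := mul_lt_of_lt_one_left hξ0 hξ1
    · rw [map_mul, h4, one_mul]; exact hβ
  have h5 : v (δ + (1 + δ) * ((4 * ξ * ξ' - 4 * β) / q)) < 1 := by
    refine lt_of_le_of_lt (v.map_add _ _) (max_lt (by rw [hδ1]; exact hg1) ?_)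
    rw [map_mul]
    refine lt_of_le_of_lt (mul_le_of_le_one_left' ?_) h3
    exact (v.map_add _ _).trans (max_le (by rw [map_one]) (by rw [hδ1]; exact hg1.le))
  rw [e2, Valuation.map_add_eq_of_lt_left]
  · rw [map_mul, h2, one_mul, hδ1]
  · rw [map_mul, map_mul, h2, one_mul, hδ1]
    exact mul_lt_of_lt_one_right hg0 h5

/-- from squares to the ratio -/
lemma val_sub_one_of_sq {r : K} {g : Γ₀} (h2 : v (2 : K) = 1) (hr : v (r - 1) < 1)
    (hsq : v (r ^ 2 - 1) = g) : v (r - 1) = g := by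
  have h1 : v (r + 1) = 1 := by
    have e : r + 1 = 2 + (r - 1) := by ring
    rw [e, Valuation.map_add_eq_of_lt_left, h2]
    rw [h2]; exact hr
  have e : r ^ 2 - 1 = (r - 1) * (r + 1) := by ring
  rw [e, map_mul, h1, mul_one] at hsq
  exact hsq

end Val

section Grp

lemma mem_decomp {A : ValuationSubring (AlgebraicClosure ℚ)}
    {s : AlgebraicClosure ℚ ≃ₐ[ℚ] AlgebraicClosure ℚ} (hs : s ∈ A.inertiaSubgroupIn ℚ) :
    s ∈ A.decompositionSubgroup ℚ := by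
  obtain ⟨τ, -, rfl⟩ := hs
  exact τ.2

/-- division by a number prime to `p` in a subgroup -/
lemma mem_of_nsmul {G : Type*} [AddCommGroup G] (B : AddSubgroup G) {p : ℕ} (hp : p.Prime)
    {a : G} (ha : p • a = 0) {j : ℕ} (hj : ¬ p ∣ j) (h : j • a ∈ B) : a ∈ B := by
  have hco : IsCoprime (j : ℤ) (p : ℤ) := by
    rw [Nat.isCoprime_iff_coprime, Nat.coprime_comm, Nat.Prime.coprime_iff_not_dvd hp]
    exact hj
  obtain ⟨c, d, hcd⟩ := hco
  have h1 : a = c • (j • a) + d • (p • a) := by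
    rw [← natCast_zsmul a j, ← natCast_zsmul a p, smul_smul, smul_smul, ← add_smul, hcd, one_smul]
  rw [h1, ha, smul_zero, add_zero]
  exact B.zsmul_mem h c

end Grp

section Main

local notation "Qb" => AlgebraicClosure ℚ
local notation "GQ" => (AlgebraicClosure ℚ ≃ₐ[ℚ] AlgebraicClosure ℚ)

variable {p : ℕ} [hp : Fact p.Prime] {W : WeierstrassCurve ℤ} {A : ValuationSubring Qb}

/-- **Local structure of `E[p]` at `p`**: multiplicative reduction, `p ∣ v_p(Δ)`. -/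
theorem mult_eloc (hp2 : p ≠ 2) (hΔ0 : W.Δ ≠ 0) (hΔ : (p : ℤ) ∣ W.Δ) (hc : ¬ (p : ℤ) ∣ W.c₄)
    (hpeu : p ∣ padicValInt p W.Δ) (hA : A.LiesOverPrime p) {ζ : Qb} (hζ : IsPrimitiveRoot ζ p) :
    ∃ e x : Submodule.torsionBy ℤ ((W.map (Int.castRingHom ℚ))⁄Qb).Point p,
      e ≠ 0 ∧ (∀ k : ℕ, x ≠ k • e) ∧ (∀ Q, ∃ i j : ℕ, Q = i • e + j • x) ∧
      (∀ s ∈ A.inertiaSubgroupIn ℚ, (∀ k : ℕ, s ζ = ζ ^ k → s • e = k • e) ∧
        ∃ κ : ℕ, s • x = x + κ • e) ∧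
      ∃ u : Qb, A.valuation u = 1 ∧
        (∀ s : Qb ≃ₐ[ℚ] Qb, s • x = x → s u = u) ∧
        (∀ s ∈ A.inertiaSubgroupIn ℚ, s • x ≠ x →
          A.valuation (s u / u - 1) = A.valuation (ζ - 1)) := by
  set v := A.valuation with hvdef
  have hq : p.Prime := hp.out
  have hp3 : 3 ≤ p := by
    have := hq.two_le
    omega
  have hodd := hq.odd_of_ne_two hp2
  have hvq : v (p : Qb) < 1 := A.mem_nonunits_iff.mp hA
  have hpK : (p : Qb) ≠ 0 := by exact_mod_cast hq.ne_zero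
  have hv2 : v (2 : Qb) = 1 := by
    have : ¬ (p : ℤ) ∣ (2 : ℤ) := by
      intro h
      exact hp2 ((Nat.prime_dvd_prime_iff_eq hq Nat.prime_two).mp (by exact_mod_cast h))
    exact_mod_cast S05.val_int_eq_one hq hvq this
  have hv4 : v (4 : Qb) = 1 := by
    have : (4 : Qb) = 2 ^ 2 := by norm_num
    rw [this, map_pow, hv2, one_pow]
  have hell : (W.map (Int.castRingHom ℚ)).IsElliptic := by
    refine ⟨isUnit_iff_ne_zero.mpr ?_⟩
    rw [WeierstrassCurve.map_Δ, eq_intCast]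
    exact_mod_cast hΔ0
  have hInt := ERep.isInt_model (A := A) (L := Qb) W
  have hΔv : v ((W.map (Int.castRingHom ℚ))⁄Qb).Δ < 1 := by
    rw [ERep.Δ_model]; exact ERep.val_int_lt_one (q := p) hvq (by exact_mod_cast hΔ)
  have hΔK : ((W.map (Int.castRingHom ℚ))⁄Qb).Δ ≠ 0 := by
    rw [ERep.Δ_model]; exact_mod_cast hΔ0
  have hcv : v ((W.map (Int.castRingHom ℚ))⁄Qb).c₄ = 1 := by
    rw [ERep.c₄_model]; exact ERep.val_int_eq_one hq hvq (by exact_mod_cast hc)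
  obtain ⟨e, t, β, h⟩ := MazX.exists_nodeData hInt hcv hΔK hΔv
  -- the root of the valuation of `β`
  obtain ⟨k, hk⟩ := hpeu
  have hn0 : padicValInt p W.Δ ≠ 0 := by
    intro h5
    have h6 : (p : ℤ) ^ 1 ∣ W.Δ := by simpa using hΔ
    rcases (padicValInt_dvd_iff 1 W.Δ).mp h6 with h | h
    · exact hΔ0 h
    · omega
  have hk0 : k ≠ 0 := by
    rintro rfl
    exact hn0 (by rw [hk, mul_zero])
  obtain ⟨γ, hγ⟩ : ∃ γ : Qb, γ ^ 2 = (p : Qb) := IsAlgClosed.exists_pow_nat_eq _ two_pos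
  have hvγ : v γ ^ 2 = v (p : Qb) := by rw [← map_pow, hγ]
  have hvp0 : v (p : Qb) ≠ 0 := v.ne_zero_iff.mpr hpK
  have hγ0 : v γ ≠ 0 := by
    intro h0
    rw [h0, zero_pow two_ne_zero] at hvγ
    exact hvp0 hvγ.symm
  have hγ1 : v γ < 1 := by
    by_contra hcon
    rw [not_lt] at hcon
    exact absurd (hvγ ▸ one_le_pow_of_one_le' hcon 2) (not_le.mpr hvq)
  set g₀ := v γ ^ k with hg₀
  have hg0 : g₀ ≠ 0 := pow_ne_zero k hγ0
  have hgpos : 0 < g₀ := zero_lt_iff.mpr hg0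
  have hg1 : g₀ < 1 := pow_lt_one₀ zero_le hγ1 hk0
  have hg2 : g₀ ^ 2 = v ((p : Qb) ^ k) := by
    rw [hg₀, ← pow_mul, mul_comm k 2, pow_mul, hvγ, map_pow]
  have hg : v β = g₀ ^ p := by
    have h1 : v β ^ 2 = v ((W.map (Int.castRingHom ℚ))⁄Qb).Δ := RTE.val_b_sq h
    rw [ERep.Δ_model, ZEC.val_int hq hA hΔ0, hk] at h1
    refine (pow_left_inj₀ zero_le zero_le two_ne_zero).mp ?_
    rw [h1, ← pow_mul g₀, mul_comm p 2, pow_mul g₀, hg2, map_pow, ← pow_mul, mul_comm k p]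
  -- the torsion
  obtain ⟨hfin, -⟩ := torsion_card_le (W := ((W.map (Int.castRingHom ℚ))⁄Qb)) hq hp2 hpK
  have hcard : p ^ 2 ≤ {Q : ((W.map (Int.castRingHom ℚ))⁄Qb).Point | p • Q = 0}.ncard := by
    have := Fermat.Agent.WP.card_torsion (W' := W.map (Int.castRingHom ℚ))
      (IsAlgClosed.lift : AlgebraicClosure ℚ →ₐ[ℚ] ℂ) hq.pos
    exact this.ge
  obtain ⟨a, ha0, ha, ha1, hgen, hgen2⟩ := exists_gen h hv4 hq hp2 hpK hvq hfin hcard
  obtain ⟨P, hP, hP0⟩ := exists_not_mem_E0 h hv4 hq hp2 hpK hfin hcard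
  obtain ⟨m, hm0, hmv⟩ := exists_first h hq hp2 hg hP hP0
  set x := m • P with hx
  have hxp : p • x = 0 := by rw [hx, smul_comm, hP, smul_zero]
  have hx0 : x ≠ 0 := by intro h0; rw [h0] at hm0; exact hm0 (zero_mem _)
  have hval := val_xc_gen h hv4 hq hp2 hpK hvq hfin hcard ha0 ha ha1 hgen
  have hvζ := val_zeta (v := v) hq hζ
  have hmain : v (xc a) * v (ζ - 1) ^ 2 = 1 := by
    have h1 : (v (xc a) * v (ζ - 1) ^ 2) ^ ((p - 1) / 2) = 1 := by
      rw [mul_pow, ← pow_mul]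
      have h2 : 2 * ((p - 1) / 2) = p - 1 := by
        obtain ⟨k, hk⟩ := hodd
        omega
      rw [h2, hvζ, mul_comm, hval]
    have hne : (p - 1) / 2 ≠ 0 := by omega
    exact (pow_eq_one_iff_of_nonneg zero_le hne).mp h1
  have hζ1 : ζ ≠ 1 := hζ.ne_one hq.one_lt
  have hgpr := hgen2 x hxp hm0
  -- inertia on the line
  have hIa : ∀ s ∈ A.inertiaSubgroupIn ℚ, ∀ k : ℕ, s ζ = ζ ^ k → s • a = k • a := by
    intro s hs k hk
    have hTM : TrivMod v s := EC.trivMod_of_mem_inertia A hs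
    have ha0' : a ∈ h.E0 := h.E1_le_E0 ha1
    have hσa : p • (s • a) = 0 := by rw [smul_comm, ha, smul_zero]
    have hσa1 : s • a ∈ h.E0 := by
      have h1 := h.E1_le_E0 (h.smul_sub_mem_E1 hTM ha0')
      have h2 := add_mem h1 ha0'
      rwa [sub_add_cancel] at h2
    obtain ⟨n, hn⟩ := hgen _ hσa hσa1
    exact smul_gen h.isInt hv4 hq hvq ha0 ha ha1 hζ1 hmain hTM hn hk
  -- the group of points with nonsingular reduction
  obtain ⟨C⟩ := RTE.exists_locMult (W.map (Int.castRingHom ℚ)) ⟨1, one_smul _ _⟩ hq hA hΔ hc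
  have hroot : ∀ s : GQ, ∃ k : ℕ, s ζ = ζ ^ k := by
    intro s
    have : NeZero p := ⟨hq.ne_zero⟩
    obtain ⟨k, -, hk⟩ := hζ.eq_pow_of_pow_eq_one (ξ := s ζ) (by
      rw [← map_pow, hζ.pow_eq_one, map_one])
    exact ⟨k, hk.symm⟩
  have hCI : ∀ s ∈ A.inertiaSubgroupIn ℚ, ∀ Q : ((W.map (Int.castRingHom ℚ))⁄Qb).Point,
      p • Q = 0 → s • Q - Q ∈ C.B := by
    intro s hs Q hQ
    have h1 := C.sub_mem s (mem_decomp hs) Q p hodd hQ
    rwa [C.z_inertia s hs, one_zsmul] at h1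
  have haB : a ∈ C.B := by
    have hζA : ζ ∈ A := by
      rw [← A.valuation_le_one_iff]
      exact val_root_le hq.ne_zero hζ.pow_eq_one
    obtain ⟨s₀, hs₀, hs₀ζ⟩ := LLc.exists_inertia_ne hq hp2 hA (ζ := ⟨ζ, hζA⟩) hζ
    obtain ⟨k₀, hk₀⟩ := hroot s₀
    have h1 := hCI s₀ hs₀ a ha
    rw [hIa s₀ hs₀ k₀ hk₀] at h1
    have h2 : (k₀ + (p - 1)) • a ∈ C.B := by
      have h3 : (k₀ + (p - 1)) • a = k₀ • a - a := by
        have h4 : (k₀ + (p - 1)) • a + a = k₀ • a := by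
          rw [← succ_nsmul, add_assoc, Nat.sub_add_cancel hq.one_le, add_smul, ha, add_zero]
        rw [← h4, add_sub_cancel_right]
      rw [h3]
      exact h1
    refine mem_of_nsmul C.B hq ha ?_ h2
    intro hd
    apply hs₀ζ
    show s₀ ζ = ζ
    rw [hk₀]
    conv_rhs => rw [← pow_one ζ]
    refine pow_eq_pow_of_modEq ?_ hζ.pow_eq_one
    obtain ⟨c, hc⟩ := hd
    have h5 : k₀ + p = 1 + p * c := by omega
    have h6 : (k₀ + p) % p = (1 + p * c) % p := by rw [h5]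
    rw [Nat.add_mod_right, Nat.add_mul_mod_self_left] at h6
    exact h6
  have hxB : x ∉ C.B := by
    intro hxB
    obtain ⟨P', hP', hP'B⟩ := C.out hp2
    obtain ⟨i, j, hij⟩ := hgpr P' hP'
    apply hP'B
    rw [hij]
    exact add_mem (nsmul_mem haB i) (nsmul_mem hxB j)
  have hIx : ∀ s ∈ A.inertiaSubgroupIn ℚ, ∃ κ : ℕ, s • x = x + κ • a := by
    intro s hs
    have h1 := hCI s hs x hxp
    have h2 : p • (s • x - x) = 0 := by
      rw [nsmul_sub, hxp, sub_zero, smul_comm, hxp, smul_zero]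
    obtain ⟨i, j, hij⟩ := hgpr _ h2
    have hj : p ∣ j := by
      by_contra hj
      apply hxB
      refine mem_of_nsmul C.B hq hxp hj ?_
      have h3 : j • x = (s • x - x) - i • a := by rw [hij]; abel
      rw [h3]
      exact sub_mem h1 (nsmul_mem haB i)
    refine ⟨i, ?_⟩
    have hjx : j • x = 0 := by
      obtain ⟨c, rfl⟩ := hj
      rw [mul_comm, mul_smul, hxp, smul_zero]
    rw [hjx, add_zero] at hij
    rw [← hij]
    abel
  -- the element
  have hξ1 : v (xc x - e) < 1 := by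
    rw [hmv]
    exact pow_lt_one₀ zero_le hg1 two_ne_zero
  have hβξ : v β < v (xc x - e) := by
    rw [hmv, hg]
    exact pow_lt_pow_right_of_lt_one₀ hgpos hg1 (by omega)
  have hvt : v (tc x) = v ((p : Qb) ^ k) := by
    rw [val_tc h hv4 hx0 hξ1 hβξ, hmv, hg2]
  have hpk0 : (p : Qb) ^ k ≠ 0 := pow_ne_zero k hpK
  have htx0 : tc x ≠ 0 := by
    rw [← v.ne_zero_iff, hvt]
    exact v.ne_zero_iff.mpr hpk0
  have hsu : ∀ s : GQ, s (tc x / (p : Qb) ^ k) = tc (s • x) / (p : Qb) ^ k := by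
    intro s
    rw [map_div₀, map_pow, map_natCast, tc_smul' s hx0]
  have hmem : ∀ Q : ((W.map (Int.castRingHom ℚ))⁄Qb).Point, p • Q = 0 →
      Q ∈ Submodule.torsionBy ℤ ((W.map (Int.castRingHom ℚ))⁄Qb).Point p := by
    intro Q hQ
    rw [Submodule.mem_torsionBy_iff, natCast_zsmul]
    exact hQ
  have hu1 : v (tc x / (p : Qb) ^ k) = 1 := by
    rw [map_div₀, hvt]
    exact div_self (v.ne_zero_iff.mpr hpk0)
  refine ⟨⟨a, hmem a ha⟩, ⟨x, hmem x hxp⟩, fun h0 => ha0 (congrArg Subtype.val h0), ?_, ?_, ?_,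
    tc x / (p : Qb) ^ k, hu1, ?_, ?_⟩
  · intro n hn
    have h1 : x = n • a := congrArg Subtype.val hn
    apply hm0
    rw [h1]
    exact nsmul_mem (h.E1_le_E0 ha1) n
  · intro Q
    obtain ⟨i, j, hij⟩ := hgpr Q (nsmul_coe_eq_zero Q)
    exact ⟨i, j, Subtype.ext hij⟩
  · intro s hs
    obtain ⟨κ, hκ⟩ := hIx s hs
    exact ⟨fun n hn => Subtype.ext (hIa s hs n hn), κ, Subtype.ext hκ⟩
  · intro s hs
    have h1 : s • x = x := congrArg Subtype.val hs
    rw [hsu, h1]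
  · intro s hs hne
    obtain ⟨κ, hκ⟩ := hIx s hs
    have hκp : ¬ p ∣ κ := by
      intro hd
      apply hne
      apply Subtype.ext
      change s • x = x
      rw [hκ, (nsmul_eq_zero_iff_dvd hq ha ha0 κ).mpr hd, add_zero]
    have hκa := xc_nsmul h.isInt hq hvq ha0 ha1 hκp
    have h5 := ratio h hodd hxp hm0 hκa.1 (nsmul_mem ha1 κ) (g := v (ζ - 1))
      (by rw [hκa.2.1]; exact hmain)
    rw [← hκ] at h5
    have hsx0 : s • x ≠ 0 := fun h0 => hx0 ((smul_eq_zero_iff_eq s).mp h0)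
    have hvζ0 : 0 < v (ζ - 1) := by
      rw [zero_lt_iff, v.ne_zero_iff]
      exact sub_ne_zero.mpr hζ1
    have hvζ1 : v (ζ - 1) < 1 := by
      by_contra hcon
      rw [not_lt] at hcon
      exact absurd (hvζ ▸ one_le_pow_of_one_le' hcon (p - 1)) (not_le.mpr hvq)
    have h6 := val_ratio_sq h hv4 hx0 hsx0 hξ1 hβξ hvζ0 hvζ1 h5
    refine val_sub_one_of_sq hv2 ?_ ?_
    · have hTM : TrivMod v s := EC.trivMod_of_mem_inertia A hs
      have h7 := hTM.int _ hu1.le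
      have h8 : s (tc x / (p : Qb) ^ k) / (tc x / (p : Qb) ^ k) - 1 =
          (s (tc x / (p : Qb) ^ k) - tc x / (p : Qb) ^ k) / (tc x / (p : Qb) ^ k) := by
        rw [sub_div, div_self (div_ne_zero htx0 hpk0)]
      rw [h8, map_div₀, hu1, div_one]
      exact h7
    · have h7 : s (tc x / (p : Qb) ^ k) / (tc x / (p : Qb) ^ k) = tc (s • x) / tc x := by
        rw [hsu]
        field_simp
      rw [h7]
      exact h6

omit hp in
/-- peu ramifiée in terms of the integral valuation -/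
theorem dvd_padicValInt_of_peuRamifiee
    (hfin : (W.map (Int.castRingHom ℚ)).IsPeuRamifieeAt p p) : p ∣ padicValInt p W.Δ := by
  have h1 : (p : ℤ) ∣ padicValRat p (W.map (Int.castRingHom ℚ)).Δ := hfin
  rw [WeierstrassCurve.map_Δ, eq_intCast, padicValRat.of_int] at h1
  exact_mod_cast h1

/-- **[LM]** The local data at a prime `p` of multiplicative reduction, peu ramifiée case. -/
theorem mult_data (hp2 : p ≠ 2) (hΔ0 : W.Δ ≠ 0) (hΔ : (p : ℤ) ∣ W.Δ) (hc : ¬ (p : ℤ) ∣ W.c₄)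
    (hfin : (W.map (Int.castRingHom ℚ)).IsPeuRamifieeAt p p) (hA : A.LiesOverPrime p) {ζ : Qb}
    (hζ : IsPrimitiveRoot ζ p) :
    ∃ e x : Submodule.torsionBy ℤ ((W.map (Int.castRingHom ℚ))⁄Qb).Point p,
      e ≠ 0 ∧ (∀ k : ℕ, x ≠ k • e) ∧
      (∀ s ∈ A.inertiaSubgroupIn ℚ, ∀ k : ℕ, s ζ = ζ ^ k → s • e = k • e) ∧
      (∀ s ∈ A.inertiaSubgroupIn ℚ, ∃ κ : ℕ, s • x = x + κ • e) ∧
      ∃ (J₀ : Subgroup GQ) (β : Qb), (∀ s ∈ J₀, s • x = x) ∧
        LLc.KHyp A p J₀ (A.valuation (ζ - 1)) β := by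
  obtain ⟨e, x, he, hx, -, hI, u, hu, hux, hu'⟩ := mult_eloc hp2 hΔ0 hΔ hc
    (dvd_padicValInt_of_peuRamifiee hfin) hA hζ
  have htors : ∀ y : Submodule.torsionBy ℤ ((W.map (Int.castRingHom ℚ))⁄Qb).Point p,
      p • y = 0 := by
    intro y
    apply Subtype.ext
    have h1 := (Submodule.mem_torsionBy_iff _ _).mp y.2
    rw [natCast_zsmul] at h1
    exact h1
  obtain ⟨x', J₀, β, -, hJx, hx', hIx', H⟩ := LLw.exists_good_basis hp2 hA hζ (htors e) (htors x)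
    he hx (fun s hs k hk => (hI s hs).1 k hk) (fun s hs => (hI s hs).2) hu hux hu'
  exact ⟨e, x', he, hx', fun s hs k hk => (hI s hs).1 k hk, hIx', J₀, β, hJx, H⟩

end Main

end Fermat.Agent.LM3
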