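import Fermat.Agent.LM3.Mult
import Fermat.Agent.LF3.Lower

/-!
# The multiplicative case in the form used by the final assembly
-/

set_option autoImplicit false

namespace Fermat.Agent.LM3

open WeierstrassCurve WeierstrassCurve.Affine WeierstrassCurve.Affine.Point

/-- **[LM]** -/
theorem locMult : LF3.LocMult := by
  intro W p hp hp2 hΔ0 hΔ hc hpeu A hA ζ hζ
  obtain ⟨e, x, he, hx, -, hI, u, hu, hux, hu'⟩ := mult_eloc hp2 hΔ0 hΔ hc hpeu hA hζ
  have htors : ∀ y : Submodule.torsionBy ℤ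
      ((W.map (Int.castRingHom ℚ))⁄(AlgebraicClosure ℚ)).Point (p : ℤ), p • y = 0 := by
    intro y
    apply Subtype.ext
    have h1 := (Submodule.mem_torsionBy_iff _ _).mp y.2
    rw [natCast_zsmul] at h1
    exact h1
  obtain ⟨x', J₀, β, -, hJx, hx', hIx', H⟩ := LLw.exists_good_basis hp2 hA hζ (htors e) (htors x)
    he hx (fun s hs k hk => (hI s hs).1 k hk) (fun s hs => (hI s hs).2) hu hux hu'
  exact ⟨e, x', J₀, β, he, hx', fun s hs k hk => (hI s hs).1 k hk, hIx', hJx, H⟩

end Fermat.Agent.LM3
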